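/-
S27lib / BR2 / Adele  (helper4) — Project D, bridge BR2 (`genusFF K F = g`), part 1.

Basic facts about the Prelude's repartitions (adeles) of a function field with principal divisors:

* `finite_poles_of_mem`          : a repartition has finitely many poles;
* `constAdele`, `singleAdele`    : constant and one-place repartitions;
* `constAdele_mem_repartitionsOf_iff` : `F ∩ A(D) = L(D)`;
* `exists_ge_mem_repartitionsOf` : every repartition lies in some `A(E')` with `E' ≥ E`.
-/
import Mathlib
import Fermat.Prelude.Def_AlgebraicCurve_DivisorClassGroup
import Fermat.Prelude.Def_AlgebraicCurve_Repartitions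
import Fermat.Agent.S18lib.Setup.CurveRR
import Fermat.Agent.S18lib.Setup.DivLemmas

set_option autoImplicit false
set_option linter.style.haveILetI false
set_option linter.unusedSectionVars false

noncomputable section

namespace Fermat.Agent.S27lib.BR2

open AlgebraicCurve Fermat.Agent.S18lib

variable {K F : Type*} [Field K] [Field F] [Algebra K F]

section Basic

/-- The constant repartition. -/
def constAdele (f : F) : ↥(repartitions K F) := algebraMap F ↥(repartitions K F) f

@[simp] theorem constAdele_apply (f : F) (v : Place K F) :
    ((constAdele f : ↥(repartitions K F)) : Place K F → F) v = f := rfl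

theorem constAdele_add (f g : F) :
    (constAdele (f + g) : ↥(repartitions K F)) = constAdele f + constAdele g :=
  map_add _ f g

theorem constAdele_smul (c : K) (f : F) :
    (constAdele (c • f) : ↥(repartitions K F)) = c • constAdele f := by
  apply Subtype.ext
  funext v
  rfl

theorem constAdele_mem_principal (f : F) :
    (constAdele f : ↥(repartitions K F)) ∈ principalRepartitions K F :=
  mem_principalRepartitions_iff.mpr ⟨f, rfl⟩

theorem constAdele_mem_repartitionsOf_iff {D : Divisor K F} {f : F} :
    (constAdele f : ↥(repartitions K F)) ∈ repartitionsOf D ↔ f ∈ riemannRochSpace D := by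
  rw [mem_repartitionsOf_iff, mem_riemannRochSpace_iff]
  rfl

theorem add_apply (α β : ↥(repartitions K F)) (v : Place K F) :
    ((α + β : ↥(repartitions K F)) : Place K F → F) v =
      (α : Place K F → F) v + (β : Place K F → F) v := rfl

theorem sub_apply (α β : ↥(repartitions K F)) (v : Place K F) :
    ((α - β : ↥(repartitions K F)) : Place K F → F) v =
      (α : Place K F → F) v - (β : Place K F → F) v := rfl

theorem smul_apply (c : K) (α : ↥(repartitions K F)) (v : Place K F) :
    ((c • α : ↥(repartitions K F)) : Place K F → F) v = c • (α : Place K F → F) v := rfl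

open scoped Classical in
/-- The repartition with value `y` at `P` and `0` elsewhere. -/
def singleAdele (P : Place K F) (y : F) : ↥(repartitions K F) :=
  ⟨Pi.single P y, mem_repartitions_of_finite_ord (by
    refine (Set.finite_singleton P).subset ?_
    intro v hv
    rw [Set.mem_ofPred_eq] at hv
    rw [Set.mem_singleton_iff]
    by_contra hne
    rw [Pi.single_eq_of_ne hne] at hv
    simp at hv)⟩

theorem singleAdele_apply_self (P : Place K F) (y : F) :
    ((singleAdele P y : ↥(repartitions K F)) : Place K F → F) P = y := by
  classical
  show (Pi.single P y : Place K F → F) P = y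
  exact Pi.single_eq_same (M := fun _ => F) P y

theorem singleAdele_apply_of_ne (P : Place K F) (y : F) {v : Place K F} (hv : v ≠ P) :
    ((singleAdele P y : ↥(repartitions K F)) : Place K F → F) v = 0 := by
  classical
  show (Pi.single P y : Place K F → F) v = 0
  exact Pi.single_eq_of_ne (M := fun _ => F) hv y

end Basic

section Poles

variable [HasPrincipalDivisors K F]

/-- A function has finitely many poles. -/
theorem finite_poles_const (f : F) : {v : Place K F | v.ord f < 0}.Finite := by
  refine (divOf (K := K) f).support.finite_toSet.subset ?_
  intro v hv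
  rw [Set.mem_ofPred_eq] at hv
  rw [Finset.mem_coe, Finsupp.mem_support_iff, divOf_apply']
  omega

/-- A repartition has finitely many poles. -/
theorem finite_poles_of_mem (α : ↥(repartitions K F)) :
    {v : Place K F | v.ord ((α : Place K F → F) v) < 0}.Finite := by
  obtain ⟨a, ha⟩ := α
  show {v : Place K F | v.ord (a v) < 0}.Finite
  induction ha using Algebra.adjoin_induction with
  | mem x hx =>
    rw [show {v : Place K F | v.ord (x v) < 0} = {v : Place K F | ¬v.adicValuation (x v) ≤ 1} from
      Set.ext fun v => (v.not_adicValuation_le_one_iff).symm]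
    exact hx
  | algebraMap f => exact finite_poles_const f
  | add x y _ _ hx hy =>
    refine (hx.union hy).subset ?_
    intro v hv
    rw [Set.mem_ofPred_eq] at hv
    rw [Set.mem_union, Set.mem_ofPred_eq, Set.mem_ofPred_eq]
    by_contra hcon
    push Not at hcon
    have h1 : v.adicValuation (x v) ≤ 1 :=
      v.adicValuation_le_one_iff.mpr (by
        by_cases h0 : x v = 0
        · exact Or.inl h0
        · exact Or.inr hcon.1)
    have h2 : v.adicValuation (y v) ≤ 1 :=
      v.adicValuation_le_one_iff.mpr (by
        by_cases h0 : y v = 0
        · exact Or.inl h0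
        · exact Or.inr hcon.2)
    have h3 : v.adicValuation ((x + y) v) ≤ 1 :=
      (Valuation.map_add _ _ _).trans (max_le h1 h2)
    rcases v.adicValuation_le_one_iff.mp h3 with h0 | h0
    · rw [h0] at hv; simp at hv
    · omega
  | mul x y _ _ hx hy =>
    refine (hx.union hy).subset ?_
    intro v hv
    rw [Set.mem_ofPred_eq] at hv
    rw [Set.mem_union, Set.mem_ofPred_eq, Set.mem_ofPred_eq]
    by_contra hcon
    push Not at hcon
    have hxy : (x * y) v = x v * y v := rfl
    rw [hxy] at hv
    by_cases hx0 : x v = 0
    · rw [hx0, zero_mul] at hv; simp at hv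
    by_cases hy0 : y v = 0
    · rw [hy0, mul_zero] at hv; simp at hv
    rw [v.ord_mul hx0 hy0] at hv
    omega

open scoped Classical in
/-- Every repartition lies in `A(E')` for some `E' ≥ E`. -/
theorem exists_ge_mem_repartitionsOf (α : ↥(repartitions K F)) (E : Divisor K F) :
    ∃ E' : Divisor K F, E ≤ E' ∧ α ∈ repartitionsOf E' := by
  set T : Finset (Place K F) := (finite_poles_of_mem α).toFinset with hT
  set E' : Divisor K F := Finsupp.onFinset (E.support ∪ T)
    (fun v => max (E v) (-(v.ord ((α : Place K F → F) v)))) (by
      intro v hv
      by_contra hnot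
      rw [Finset.mem_union, not_or, Finsupp.mem_support_iff, not_not, hT,
        Set.Finite.mem_toFinset, Set.mem_ofPred_eq, not_lt] at hnot
      apply hv
      rw [hnot.1]
      exact max_eq_left (by omega)) with hE'
  refine ⟨E', ?_, ?_⟩
  · rw [Finsupp.le_def]
    intro v
    rw [hE', Finsupp.onFinset_apply]
    exact le_max_left _ _
  · rw [mem_repartitionsOf_iff]
    intro v
    right
    rw [hE', Finsupp.onFinset_apply]
    have := le_max_right (E v) (-(v.ord ((α : Place K F → F) v)))
    omega

end Poles

end Fermat.Agent.S27lib.BR2
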