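/-
S27lib / BR2 / PrincipalPart  (helper4) — Project D, bridge BR2 (`genusFF K F = g`), part 3.

The principal part at a rational place `P`: for `E = n·P` the `K`-linear map
`pp : A(n·P) → Kⁿ`, `α ↦` the first `n` Taylor coefficients of `tⁿ·α_P` (`t` a uniformizer at `P`).
It is surjective with kernel `A(0) ∩ A(n·P)`.

* `ppMap`, `ppMap_apply`;
* `ppMap_eq_zero_iff`  : `pp α = 0 ↔ α ∈ A(0)`;
* `ppMap_surjective`.
-/
import Mathlib
import Fermat.Agent.S27lib.BR2.Adele
import Fermat.Agent.S18lib.Cech.CurveBasics
import Fermat.Agent.ProgramR.RHLocal.Main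

set_option autoImplicit false
set_option linter.style.haveILetI false
set_option linter.unusedSectionVars false

noncomputable section

namespace Fermat.Agent.S27lib.BR2

open AlgebraicCurve Fermat.Agent.S18lib Fermat.Agent.ProgramR Fermat.Agent.ProgramR.RHLocal

variable {K F : Type*} [Field K] [Field F] [Algebra K F]

section Local

variable (P : Place K F) [RatRes K P.toValuationSubring]

/-- The chosen uniformizer at `P`, as an element of `F`. -/
def unif : F := ((chosenUniformizer P : P.toValuationSubring) : F)

theorem ord_unif : P.ord (unif P) = 1 := ord_chosenUniformizer P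

theorem unif_ne_zero : unif P ≠ 0 := by
  intro h
  have := ord_unif P
  rw [h, Place.ord_zero] at this
  omega

/-- The first `n` Taylor coefficients vanish iff `ϖⁿ` divides. -/
theorem forall_coeff_taylor_eq_zero_iff (n : ℕ) (a : P.toValuationSubring) :
    (∀ i < n, PowerSeries.coeff i (taylor K (chosenUniformizer_irreducible P) a) = 0) ↔
      chosenUniformizer P ^ n ∣ a := by
  rw [← PowerSeries.X_pow_dvd_iff]
  constructor
  · intro h
    apply order_taylor_le_of_dvd (K := K) (chosenUniformizer_irreducible P)
    rw [map_pow, taylor_irreducible]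
    exact h
  · rintro ⟨b, rfl⟩
    rw [map_mul, map_pow, taylor_irreducible]
    exact dvd_mul_right _ _

/-- `ϖⁿ ∣ ⟨tⁿ·x, _⟩` iff `x` is regular at `P`. -/
theorem unif_pow_dvd_iff (n : ℕ) (x : F) (hx : unif P ^ n * x ∈ P.toValuationSubring) :
    chosenUniformizer P ^ n ∣ (⟨unif P ^ n * x, hx⟩ : P.toValuationSubring) ↔
      x ∈ P.toValuationSubring := by
  constructor
  · rintro ⟨b, hb⟩
    have h1 := congrArg (fun z : P.toValuationSubring => (z : F)) hb
    simp only [MulMemClass.coe_mul, SubmonoidClass.coe_pow] at h1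
    have h2 : x = (b : F) := by
      have hne : unif P ^ n ≠ 0 := pow_ne_zero _ (unif_ne_zero P)
      exact mul_left_cancel₀ hne h1
    rw [h2]
    exact b.2
  · intro hx'
    exact ⟨⟨x, hx'⟩, Subtype.ext rfl⟩

end Local

section PP

variable {g : ℕ}

/-- `tⁿ·α_P` is regular at `P` for `α ∈ A(n·P)`. -/
theorem unif_pow_mul_mem (P : Place K F) [RatRes K P.toValuationSubring] (n : ℕ)
    (α : ↥(repartitions K F)) (hα : α ∈ repartitionsOf (Finsupp.single P (n : ℤ))) :
    unif P ^ n * (α : Place K F → F) P ∈ P.toValuationSubring := by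
  classical
  rw [mem_repartitionsOf_iff] at hα
  rcases hα P with h0 | h1
  · rw [h0, mul_zero]; exact P.toValuationSubring.zero_mem
  · rw [Finsupp.single_apply, if_pos rfl] at h1
    by_cases h0 : (α : Place K F → F) P = 0
    · rw [h0, mul_zero]; exact P.toValuationSubring.zero_mem
    apply FF.mem_of_ord_nonneg
    rw [P.ord_mul (pow_ne_zero _ (unif_ne_zero P)) h0, Cech.ord_pow, ord_unif]
    omega

/-- `α ↦ tⁿ·α_P`, as a `K`-linear map `A(n·P) → O_P`. -/
def regPart (P : Place K F) [RatRes K P.toValuationSubring] (n : ℕ) :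
    ↥(repartitionsOf (Finsupp.single P (n : ℤ))) →ₗ[K] P.toValuationSubring where
  toFun α := ⟨unif P ^ n * ((α : ↥(repartitions K F)) : Place K F → F) P,
    unif_pow_mul_mem P n α.1 α.2⟩
  map_add' α β := by
    apply Subtype.ext
    show unif P ^ n * (((α : ↥(repartitions K F)) + (β : ↥(repartitions K F)) :
      ↥(repartitions K F)) : Place K F → F) P = _
    rw [add_apply, mul_add]
    rfl
  map_smul' c α := by
    apply Subtype.ext
    rw [RingHom.id_apply, Algebra.smul_def]
    show unif P ^ n * ((c • (α : ↥(repartitions K F)) : ↥(repartitions K F)) :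
      Place K F → F) P = ((algebraMap K P.toValuationSubring c : P.toValuationSubring) : F) *
        (unif P ^ n * ((α : ↥(repartitions K F)) : Place K F → F) P)
    rw [smul_apply, Algebra.smul_def, Place.coe_algebraMap]
    ring

theorem coe_regPart (P : Place K F) [RatRes K P.toValuationSubring] (n : ℕ)
    (α : ↥(repartitionsOf (Finsupp.single P (n : ℤ)))) :
    ((regPart P n α : P.toValuationSubring) : F) =
      unif P ^ n * ((α : ↥(repartitions K F)) : Place K F → F) P := rfl

/-- The principal part map `A(n·P) → Kⁿ`. -/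
def ppMap (P : Place K F) [RatRes K P.toValuationSubring] (n : ℕ) :
    ↥(repartitionsOf (Finsupp.single P (n : ℤ))) →ₗ[K] (Fin n → K) :=
  LinearMap.pi fun i : Fin n =>
    (PowerSeries.coeff (R := K) (i : ℕ)) ∘ₗ
      ((taylor K (chosenUniformizer_irreducible P)).toLinearMap ∘ₗ regPart P n)

theorem ppMap_apply (P : Place K F) [RatRes K P.toValuationSubring] (n : ℕ)
    (α : ↥(repartitionsOf (Finsupp.single P (n : ℤ)))) (i : Fin n) :
    ppMap P n α i =
      PowerSeries.coeff (i : ℕ) (taylor K (chosenUniformizer_irreducible P) (regPart P n α)) := rfl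

/-- The kernel of the principal part map is `A(0)`. -/
theorem ppMap_eq_zero_iff (P : Place K F) [RatRes K P.toValuationSubring] (n : ℕ)
    (α : ↥(repartitionsOf (Finsupp.single P (n : ℤ)))) :
    ppMap P n α = 0 ↔ (α : ↥(repartitions K F)) ∈ repartitionsOf (0 : Divisor K F) := by
  classical
  have h1 : ppMap P n α = 0 ↔ ∀ i < n, PowerSeries.coeff i
      (taylor K (chosenUniformizer_irreducible P) (regPart P n α)) = 0 := by
    constructor
    · intro h i hi
      have := congrFun h ⟨i, hi⟩
      rw [ppMap_apply] at this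
      exact this
    · intro h
      funext i
      rw [ppMap_apply]
      exact h i i.2
  rw [h1, forall_coeff_taylor_eq_zero_iff]
  have h2 : chosenUniformizer P ^ n ∣ regPart P n α ↔
      ((α : ↥(repartitions K F)) : Place K F → F) P ∈ P.toValuationSubring :=
    unif_pow_dvd_iff P n _ (unif_pow_mul_mem P n α.1 α.2)
  rw [h2, mem_repartitionsOf_iff]
  have hα := α.2
  rw [mem_repartitionsOf_iff] at hα
  constructor
  · intro hP v
    by_cases hv : v = P
    · rw [hv]
      right
      rw [Finsupp.zero_apply, neg_zero]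
      exact FF.ord_nonneg_of_mem P hP
    · have := hα v
      rw [Finsupp.single_apply, if_neg (Ne.symm hv)] at this
      rw [Finsupp.zero_apply]
      exact this
  · intro h
    rcases h P with h0 | h0
    · rw [h0]; exact P.toValuationSubring.zero_mem
    · rw [Finsupp.zero_apply, neg_zero] at h0
      exact FF.mem_of_ord_nonneg P h0

/-- The principal part map is surjective. -/
theorem ppMap_surjective (P : Place K F) [RatRes K P.toValuationSubring] (n : ℕ) :
    Function.Surjective (ppMap P n) := by
  classical
  intro c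
  set ϖ := chosenUniformizer P with hϖ
  set a : P.toValuationSubring :=
    ∑ i : Fin n, algebraMap K P.toValuationSubring (c i) * ϖ ^ (i : ℕ) with ha
  have hmem : singleAdele P ((unif P ^ n)⁻¹ * (a : F)) ∈
      repartitionsOf (Finsupp.single P (n : ℤ)) := by
    rw [mem_repartitionsOf_iff]
    intro v
    by_cases hv : v = P
    · rw [hv, singleAdele_apply_self, Finsupp.single_apply, if_pos rfl]
      by_cases h0 : (a : F) = 0
      · left; rw [h0, mul_zero]
      · right
        rw [P.ord_mul (inv_ne_zero (pow_ne_zero _ (unif_ne_zero P))) h0, P.ord_inv, Cech.ord_pow,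
          ord_unif]
        have := FF.ord_nonneg_of_mem P a.2
        omega
    · left
      exact singleAdele_apply_of_ne P _ hv
  refine ⟨⟨singleAdele P ((unif P ^ n)⁻¹ * (a : F)), hmem⟩, ?_⟩
  have hreg : regPart P n ⟨singleAdele P ((unif P ^ n)⁻¹ * (a : F)), hmem⟩ = a := by
    apply Subtype.ext
    rw [coe_regPart]
    show unif P ^ n * ((singleAdele P ((unif P ^ n)⁻¹ * (a : F)) : ↥(repartitions K F)) :
      Place K F → F) P = _
    rw [singleAdele_apply_self, ← mul_assoc, mul_inv_cancel₀ (pow_ne_zero _ (unif_ne_zero P)),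
      one_mul]
  funext j
  rw [ppMap_apply, hreg, ha, map_sum, map_sum]
  have hterm : ∀ i : Fin n, PowerSeries.coeff (j : ℕ)
      (taylor K (chosenUniformizer_irreducible P)
        (algebraMap K P.toValuationSubring (c i) * ϖ ^ (i : ℕ))) =
      if (j : ℕ) = (i : ℕ) then c i else 0 := by
    intro i
    rw [map_mul, map_pow, taylor_irreducible, AlgHom.commutes]
    exact PowerSeries.coeff_C_mul_X_pow (c i) (i : ℕ) (j : ℕ)
  rw [Finset.sum_congr rfl (fun i _ => hterm i)]
  rw [Finset.sum_eq_single j]
  · simp
  · intro i _ hij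
    rw [if_neg]
    intro h
    exact hij (Fin.ext h.symm)
  · intro h
    exact absurd (Finset.mem_univ j) h

end PP

end Fermat.Agent.S27lib.BR2
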