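/-
S27lib / BR2 / Main  (helper4) — Project D, bridge BR2.

**The adelic genus of the frozen statement S27 is the Riemann–Roch genus**:
`IsCurveOfGenus K F g → genusFF K F = g`, where `genusFF K F = dim_K A / (A(0) + F)`.

Proof (Weil).  Take `E = 2g·P`.  By strong approximation `A = A(E) + F`, so
`A / (A(0) + F) ≅ A(E) / (A(0) + L(E)) ≅ Kⁿ / pp(L(E))` (`n = 2g`, `pp` the principal part at `P`,
surjective with kernel `A(0)`), and `dim pp(L(E)) = ℓ(E) - ℓ(0) = (n + 1 - g) - 1`.
-/
import Mathlib
import Fermat.Agent.S27lib.BR2.Approx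
import Fermat.Agent.S27lib.BR2.PrincipalPart

set_option autoImplicit false
set_option linter.style.haveILetI false
set_option linter.unusedSectionVars false
set_option maxSynthPendingDepth 3

noncomputable section

namespace Fermat.Agent.S27lib.BR2

open AlgebraicCurve Fermat.Agent.S18lib Fermat.Agent.ProgramR Fermat.Agent.ProgramR.RHLocal

variable {K F : Type*} [Field K] [Field F] [Algebra K F] {g : ℕ}

section Maps

variable (P : Place K F) (n : ℕ)

/-- `L(n·P) → A(n·P)`, constants. -/
def constMap : ↥(riemannRochSpace (Finsupp.single P (n : ℤ))) →ₗ[K]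
    ↥(repartitionsOf (Finsupp.single P (n : ℤ))) where
  toFun f := ⟨constAdele (f : F), constAdele_mem_repartitionsOf_iff.mpr f.2⟩
  map_add' f f' := Subtype.ext (constAdele_add (f : F) (f' : F))
  map_smul' c f := Subtype.ext (constAdele_smul c (f : F))

theorem coe_constMap (f : ↥(riemannRochSpace (Finsupp.single P (n : ℤ)))) :
    ((constMap P n f : ↥(repartitionsOf (Finsupp.single P (n : ℤ)))) : ↥(repartitions K F)) =
      constAdele (f : F) := rfl

/-- `A(n·P) → A / (A(0) + F)`. -/
def toH1 : ↥(repartitionsOf (Finsupp.single P (n : ℤ))) →ₗ[K] H1 (0 : Divisor K F) :=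
  (repartitionsOf (0 : Divisor K F) ⊔ principalRepartitions K F).mkQ ∘ₗ
    (repartitionsOf (Finsupp.single P (n : ℤ))).subtype

variable [RatRes K P.toValuationSubring]

/-- `L(n·P) → Kⁿ`, principal parts of functions. -/
def ppFun : ↥(riemannRochSpace (Finsupp.single P (n : ℤ))) →ₗ[K] (Fin n → K) :=
  ppMap P n ∘ₗ constMap P n

/-- `A(n·P) → Kⁿ / pp(L(n·P))`. -/
def toQuot : ↥(repartitionsOf (Finsupp.single P (n : ℤ))) →ₗ[K]
    ((Fin n → K) ⧸ LinearMap.range (ppFun P n)) :=
  (LinearMap.range (ppFun P n)).mkQ ∘ₗ ppMap P n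

theorem toQuot_surjective : Function.Surjective (toQuot P n) :=
  (Submodule.mkQ_surjective _).comp (ppMap_surjective P n)

theorem zero_le_single : (0 : Divisor K F) ≤ Finsupp.single P (n : ℤ) := by
  classical
  rw [Finsupp.le_def]
  intro v
  rw [Finsupp.zero_apply, Finsupp.single_apply]
  split_ifs
  · exact Int.natCast_nonneg n
  · exact le_rfl

/-- The two maps out of `A(n·P)` have the same kernel `A(0) + L(n·P)`. -/
theorem ker_toH1_eq_ker_toQuot : LinearMap.ker (toH1 P n) = LinearMap.ker (toQuot P n) := by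
  ext β
  rw [LinearMap.mem_ker, LinearMap.mem_ker]
  have h1 : toH1 P n β = 0 ↔ (β : ↥(repartitions K F)) ∈
      repartitionsOf (0 : Divisor K F) ⊔ principalRepartitions K F := by
    show (repartitionsOf (0 : Divisor K F) ⊔ principalRepartitions K F).mkQ
      (β : ↥(repartitions K F)) = 0 ↔ _
    rw [Submodule.mkQ_apply, Submodule.Quotient.mk_eq_zero]
  have h2 : toQuot P n β = 0 ↔ ppMap P n β ∈ LinearMap.range (ppFun P n) := by
    show (LinearMap.range (ppFun P n)).mkQ (ppMap P n β) = 0 ↔ _
    rw [Submodule.mkQ_apply, Submodule.Quotient.mk_eq_zero]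
  rw [h1, h2]
  constructor
  · intro h
    obtain ⟨γ, hγ, δ, hδ, hsum⟩ := Submodule.mem_sup.mp h
    obtain ⟨f, hf⟩ := mem_principalRepartitions_iff.mp hδ
    have hδ' : δ = constAdele f := Subtype.ext hf
    have hγE : γ ∈ repartitionsOf (Finsupp.single P (n : ℤ)) :=
      repartitionsOf_mono (zero_le_single P n) hγ
    have hfE : (constAdele f : ↥(repartitions K F)) ∈ repartitionsOf (Finsupp.single P (n : ℤ)) := by
      have : (constAdele f : ↥(repartitions K F)) = (β : ↥(repartitions K F)) - γ := by
        rw [← hδ', ← hsum]; abel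
      rw [this]
      exact Submodule.sub_mem _ β.2 hγE
    have hfL : f ∈ riemannRochSpace (Finsupp.single P (n : ℤ)) :=
      constAdele_mem_repartitionsOf_iff.mp hfE
    refine ⟨⟨f, hfL⟩, ?_⟩
    have hβ : β = (⟨γ, hγE⟩ : ↥(repartitionsOf (Finsupp.single P (n : ℤ)))) +
        constMap P n ⟨f, hfL⟩ := by
      apply Subtype.ext
      show (β : ↥(repartitions K F)) = γ + constAdele f
      rw [← hδ', hsum]
    have hγ0 : ppMap P n (⟨γ, hγE⟩ : ↥(repartitionsOf (Finsupp.single P (n : ℤ)))) = 0 :=
      (ppMap_eq_zero_iff P n _).mpr hγ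
    rw [hβ, map_add, hγ0, zero_add]
    rfl
  · rintro ⟨f, hf⟩
    have h0 : ppMap P n (β - constMap P n f) = 0 := by
      rw [LinearMap.map_sub, ← hf]
      show ppMap P n (constMap P n f) - ppMap P n (constMap P n f) = 0
      exact sub_self _
    have hmem := (ppMap_eq_zero_iff P n _).mp h0
    have hsum : (β : ↥(repartitions K F)) =
        ((β - constMap P n f : ↥(repartitionsOf (Finsupp.single P (n : ℤ)))) :
          ↥(repartitions K F)) + constAdele (f : F) := by
      show (β : ↥(repartitions K F)) = ((β : ↥(repartitions K F)) - constAdele (f : F)) +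
        constAdele (f : F)
      abel
    rw [hsum]
    exact Submodule.add_mem_sup hmem (constAdele_mem_principal _)

/-- `ker (pp ∘ const) = L(0)` inside `L(n·P)`. -/
theorem ker_ppFun : LinearMap.ker (ppFun P n) =
    (riemannRochSpace (0 : Divisor K F)).comap
      (riemannRochSpace (Finsupp.single P (n : ℤ))).subtype := by
  ext f
  rw [LinearMap.mem_ker, Submodule.mem_comap]
  show ppMap P n (constMap P n f) = 0 ↔ _
  rw [ppMap_eq_zero_iff, coe_constMap, constAdele_mem_repartitionsOf_iff]
  rfl

end Maps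

/-- `ℓ(0) = 1`. -/
theorem finrank_riemannRochSpace_zero (hF : IsCurveOfGenus K F g) :
    Module.finrank K (riemannRochSpace (0 : Divisor K F)) = 1 := by
  rw [hF.riemannRochSpace_zero]
  exact Subalgebra.finrank_bot

theorem toH1_surjective (hF : IsCurveOfGenus K F g) (P : Place K F) (n : ℕ)
    (hn : 2 * (g : ℤ) - 2 < n) : Function.Surjective (toH1 (K := K) P n) := by
  intro x
  obtain ⟨α, rfl⟩ := Submodule.Quotient.mk_surjective _ x
  have hdeg : 2 * (g : ℤ) - 2 < Divisor.degree (Finsupp.single P (n : ℤ)) := by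
    rw [Divisor.degree_single, hF.deg_eq_one P]; simpa using hn
  have htop := repartitionsOf_sup_eq_top hF hdeg
  have hα : α ∈ repartitionsOf (Finsupp.single P (n : ℤ)) ⊔ principalRepartitions K F := by
    rw [htop]; exact Submodule.mem_top
  obtain ⟨β, hβ, δ, hδ, hsum⟩ := Submodule.mem_sup.mp hα
  refine ⟨⟨β, hβ⟩, ?_⟩
  show Submodule.Quotient.mk β = Submodule.Quotient.mk α
  rw [Submodule.Quotient.eq]
  have : β - α = -δ := by rw [← hsum]; abel
  rw [this]
  exact Submodule.neg_mem _ (Submodule.mem_sup_right hδ)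

/-- **BR2.**  The adelic genus is the Riemann–Roch genus. -/
theorem genusFF_eq_of_isCurveOfGenus (hF : IsCurveOfGenus K F g) : genusFF K F = g := by
  classical
  haveI := hF.infinite_places
  haveI := hF.finiteDimensional
  obtain ⟨P⟩ : Nonempty (Place K F) := inferInstance
  haveI : RatRes K P.toValuationSubring := isRationalPlace_of_deg_eq_one P (hF.deg_eq_one P)
  set n : ℕ := 2 * g with hn
  have hn' : 2 * (g : ℤ) - 2 < n := by rw [hn]; push_cast; omega
  -- the chain of isomorphisms
  have e1 : (↥(repartitionsOf (Finsupp.single P (n : ℤ))) ⧸ LinearMap.ker (toH1 (K := K) P n))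
      ≃ₗ[K] H1 (0 : Divisor K F) :=
    LinearMap.quotKerEquivOfSurjective _ (toH1_surjective hF P n hn')
  have e2 : (↥(repartitionsOf (Finsupp.single P (n : ℤ))) ⧸ LinearMap.ker (toQuot (K := K) P n))
      ≃ₗ[K] ((Fin n → K) ⧸ LinearMap.range (ppFun (K := K) P n)) :=
    LinearMap.quotKerEquivOfSurjective _ (toQuot_surjective P n)
  have e3 := Submodule.quotEquivOfEq _ _ (ker_toH1_eq_ker_toQuot (K := K) P n)
  have hrank : Module.finrank K (H1 (0 : Divisor K F)) =
      Module.finrank K ((Fin n → K) ⧸ LinearMap.range (ppFun (K := K) P n)) :=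
    (e1.symm.trans (e3.trans e2)).finrank_eq
  unfold genusFF
  rw [hrank, Submodule.finrank_quotient, Module.finrank_fin_fun]
  -- the dimension of the range
  have hrn := LinearMap.finrank_range_add_finrank_ker (ppFun (K := K) P n)
  have hker : Module.finrank K (LinearMap.ker (ppFun (K := K) P n)) = 1 := by
    rw [ker_ppFun]
    have hle : riemannRochSpace (0 : Divisor K F) ≤ riemannRochSpace (Finsupp.single P (n : ℤ)) :=
      riemannRochSpace_mono (zero_le_single P n)
    rw [(Submodule.comapSubtypeEquivOfLe hle).finrank_eq]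
    exact finrank_riemannRochSpace_zero hF
  have hl := hF.riemann_eq (Finsupp.single P (n : ℤ)) (by
    rw [Divisor.degree_single, hF.deg_eq_one P]; simpa using hn')
  rw [Divisor.degree_single, hF.deg_eq_one P] at hl
  have hl' : (Module.finrank K (riemannRochSpace (Finsupp.single P (n : ℤ))) : ℤ) =
      (n : ℤ) + 1 - g := by simpa using hl
  have : (Module.finrank K (LinearMap.range (ppFun (K := K) P n)) : ℤ) = (n : ℤ) - g := by
    have h3 : (Module.finrank K (LinearMap.range (ppFun (K := K) P n)) : ℤ) +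
        Module.finrank K (LinearMap.ker (ppFun (K := K) P n)) =
        Module.finrank K (riemannRochSpace (Finsupp.single P (n : ℤ))) := by exact_mod_cast hrn
    rw [hker, hl'] at h3
    push_cast at h3
    omega
  omega

/-- **BR2** in the exact shape of `BR2Stmt` of `S27lib/Iface`. -/
theorem genusFF_eq.{u, v} (K : Type u) (F : Type v) [Field K] [Field F] [Algebra K F] (g : ℕ)
    (hF : IsCurveOfGenus K F g) : genusFF K F = g :=
  genusFF_eq_of_isCurveOfGenus hF

end Fermat.Agent.S27lib.BR2
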