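/-
S27lib / BR2 / Approx  (helper4) — Project D, bridge BR2 (`genusFF K F = g`), part 2.

Strong approximation from Riemann's theorem: for a curve of genus `g` and a divisor `E` of degree
`> 2g - 2`, every repartition is the sum of an element of `A(E)` and a principal one.

* `repartitionsOf_add_single_le` : `A(D + Q) ≤ A(D) + F` when `deg D > 2g - 2`;
* `repartitionsOf_le_sup`        : `A(E') ≤ A(E) + F` for `E ≤ E'`, `deg E > 2g - 2`;
* `repartitionsOf_sup_eq_top`    : `A(E) + F = A`.
-/
import Mathlib
import Fermat.Agent.S27lib.BR2.Adele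
import Fermat.Agent.S18lib.Cech.CurveBasics
import Fermat.Agent.ProgramR.RHLocal.Main

set_option autoImplicit false
set_option linter.style.haveILetI false
set_option linter.unusedSectionVars false

noncomputable section

namespace Fermat.Agent.S27lib.BR2

open AlgebraicCurve Fermat.Agent.S18lib Fermat.Agent.ProgramR Fermat.Agent.ProgramR.RHLocal

variable {K F : Type*} [Field K] [Field F] [Algebra K F] {g : ℕ}

/-- The local condition `x = 0 ∨ -n ≤ ord x` is stable under `x - c • y`. -/
theorem ordCond_sub_smul (v : Place K F) {x y : F} {n : ℤ} (c : K)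
    (hx : x = 0 ∨ -n ≤ v.ord x) (hy : y = 0 ∨ -n ≤ v.ord y) :
    x - c • y = 0 ∨ -n ≤ v.ord (x - c • y) := by
  rw [← v.adicValuation_le_exp_iff] at hx hy ⊢
  have h1 : v.adicValuation (c • y) ≤ WithZero.exp n := by
    rw [Algebra.smul_def, map_mul]
    exact (mul_le_of_le_one_left' (v.adicValuation_algebraMap_le_one c)).trans hy
  exact (Valuation.map_sub _ _ _).trans (max_le hx h1)

theorem degree_add_single (hF : IsCurveOfGenus K F g) (D : Divisor K F) (Q : Place K F) :
    Divisor.degree (D + Finsupp.single Q 1) = Divisor.degree D + 1 := by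
  rw [map_add, Divisor.degree_single, hF.deg_eq_one Q]
  simp

/-- One step of strong approximation. -/
theorem repartitionsOf_add_single_le (hF : IsCurveOfGenus K F g) (D : Divisor K F) (Q : Place K F)
    (hdeg : 2 * (g : ℤ) - 2 < Divisor.degree D) :
    repartitionsOf (D + Finsupp.single Q 1) ≤ repartitionsOf D ⊔ principalRepartitions K F := by
  classical
  haveI := hF.hasPrincipalDivisors
  haveI := hF.finiteDimensional
  -- a function in `L(D + Q)` not in `L(D)`
  have hl1 := hF.riemann_eq D hdeg
  have hl2 := hF.riemann_eq (D + Finsupp.single Q 1) (by rw [degree_add_single hF]; omega)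
  rw [degree_add_single hF] at hl2
  obtain ⟨f, hfE, hfD⟩ : ∃ f : F, f ∈ riemannRochSpace (D + Finsupp.single Q 1) ∧
      f ∉ riemannRochSpace D := by
    by_contra hcon
    push Not at hcon
    have hle : riemannRochSpace (D + Finsupp.single Q 1) ≤ riemannRochSpace D := hcon
    have := Submodule.finrank_mono hle
    have h' : (Module.finrank K (riemannRochSpace (D + Finsupp.single Q 1)) : ℤ) ≤
        Module.finrank K (riemannRochSpace D) := by exact_mod_cast this
    omega
  have hf0 : f ≠ 0 := fun h => hfD (h ▸ Submodule.zero_mem _)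
  rw [mem_riemannRochSpace_iff] at hfE hfD
  have hfv : ∀ v : Place K F, v ≠ Q → -D v ≤ v.ord f := by
    intro v hv
    have := (hfE v).resolve_left hf0
    rw [Finsupp.add_apply, Finsupp.single_apply, if_neg (Ne.symm hv)] at this
    omega
  have hfQ1 : -D Q - 1 ≤ Q.ord f := by
    have := (hfE Q).resolve_left hf0
    rw [Finsupp.add_apply, Finsupp.single_apply, if_pos rfl] at this
    omega
  have hfQ2 : Q.ord f < -D Q := by
    by_contra hcon
    push Not at hcon
    apply hfD
    intro v
    right
    by_cases hv : v = Q
    · rw [hv]; exact hcon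
    · exact hfv v hv
  have hfQ : Q.ord f = -D Q - 1 := by omega
  -- the approximation
  intro α hα
  rw [mem_repartitionsOf_iff] at hα
  have hαv : ∀ v : Place K F, v ≠ Q →
      ((α : Place K F → F) v = 0 ∨ -D v ≤ v.ord ((α : Place K F → F) v)) := by
    intro v hv
    have := hα v
    rw [Finsupp.add_apply, Finsupp.single_apply, if_neg (Ne.symm hv), add_zero] at this
    exact this
  by_cases hQ : (α : Place K F → F) Q = 0 ∨ -D Q ≤ Q.ord ((α : Place K F → F) Q)
  · refine Submodule.mem_sup_left ?_
    rw [mem_repartitionsOf_iff]
    intro v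
    by_cases hv : v = Q
    · rw [hv]; exact hQ
    · exact hαv v hv
  push Not at hQ
  obtain ⟨ha0, haQ'⟩ := hQ
  have haQ : Q.ord ((α : Place K F → F) Q) = -D Q - 1 := by
    have := (hα Q).resolve_left ha0
    rw [Finsupp.add_apply, Finsupp.single_apply, if_pos rfl] at this
    omega
  set a : F := (α : Place K F → F) Q with ha
  -- the unit `a / f` and its value
  have hu0 : a / f ≠ 0 := div_ne_zero ha0 hf0
  have hu : Q.ord (a / f) = 0 := by
    rw [div_eq_mul_inv, Q.ord_mul ha0 (inv_ne_zero hf0), Q.ord_inv, haQ, hfQ]; ring
  have hrat : IsRationalPlace Q := isRationalPlace_of_deg_eq_one Q (hF.deg_eq_one Q)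
  obtain ⟨c, hc⟩ := RHLocal.exists_value (v := Q) hrat (FF.mem_of_ord_nonneg Q hu.ge)
  -- `β = α - c f ∈ A(D)`
  have hβ : α - c • (constAdele f : ↥(repartitions K F)) ∈ repartitionsOf D := by
    rw [mem_repartitionsOf_iff]
    intro v
    rw [sub_apply, smul_apply, constAdele_apply]
    by_cases hv : v = Q
    · rw [hv]
      have hfac : a - c • f = f * (a / f - algebraMap K F c) := by
        rw [Algebra.smul_def]; field_simp
      show a - c • f = 0 ∨ _
      rw [hfac]
      rcases hc with hc | hc
      · left; rw [hc, sub_self, mul_zero]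
      · right
        have hne : a / f - algebraMap K F c ≠ 0 := by
          intro h0
          rw [h0] at hc
          simp at hc
        rw [Q.ord_mul hf0 hne, hfQ]
        omega
    · exact ordCond_sub_smul v c (hαv v hv) (Or.inr (hfv v hv))
  have hsum : α = (α - c • (constAdele f : ↥(repartitions K F))) +
      c • (constAdele f : ↥(repartitions K F)) := by abel
  rw [hsum]
  exact Submodule.add_mem_sup hβ
    (Submodule.smul_mem _ c (constAdele_mem_principal f))

/-- Strong approximation, inductive form. -/
theorem repartitionsOf_le_sup_aux (hF : IsCurveOfGenus K F g) (E : Divisor K F)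
    (hdeg : 2 * (g : ℤ) - 2 < Divisor.degree E) :
    ∀ (k : ℕ) (E' : Divisor K F), E ≤ E' → Divisor.degree E' - Divisor.degree E = k →
      repartitionsOf E' ≤ repartitionsOf E ⊔ principalRepartitions K F := by
  classical
  have hdegpos : ∀ v : Place K F, 0 < v.deg := fun v => by rw [hF.deg_eq_one v]; exact one_pos
  intro k
  induction k with
  | zero =>
    intro E' hle hk
    have h0 : E' - E = 0 := by
      refine Cech.eq_zero_of_nonneg_of_degree_eq_zero hdegpos (fun v => ?_) ?_
      · rw [Finsupp.sub_apply]
        have := Finsupp.le_def.mp hle v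
        omega
      · rw [map_sub]; simpa using hk
    have : E' = E := sub_eq_zero.mp h0
    rw [this]
    exact le_sup_left
  | succ k ih =>
    intro E' hle hk
    -- a place where `E < E'`
    obtain ⟨v, hv⟩ : ∃ v : Place K F, E v < E' v := by
      by_contra hcon
      push Not at hcon
      have : E' = E := le_antisymm (Finsupp.le_def.mpr hcon) hle
      rw [this] at hk
      simp at hk
      omega
    set E'' : Divisor K F := E' - Finsupp.single v 1 with hE''
    have hle'' : E ≤ E'' := by
      rw [Finsupp.le_def]
      intro w
      rw [hE'', Finsupp.sub_apply, Finsupp.single_apply]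
      have := Finsupp.le_def.mp hle w
      split_ifs with hw
      · rw [← hw]; omega
      · omega
    have hE' : E' = E'' + Finsupp.single v 1 := by rw [hE'']; abel
    have hdeg'' : Divisor.degree E'' = Divisor.degree E' - 1 := by
      have := degree_add_single hF E'' v
      rw [← hE'] at this
      omega
    have h1 : repartitionsOf E' ≤ repartitionsOf E'' ⊔ principalRepartitions K F := by
      rw [hE']
      refine repartitionsOf_add_single_le hF E'' v ?_
      have : Divisor.degree E ≤ Divisor.degree E'' := by
        have h2 : 0 ≤ Divisor.degree (E'' - E) :=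
          Cech.degree_nonneg_of_nonneg (fun w => by
            rw [Finsupp.sub_apply]
            have := Finsupp.le_def.mp hle'' w
            omega)
        rw [map_sub] at h2
        omega
      omega
    have h2 : repartitionsOf E'' ≤ repartitionsOf E ⊔ principalRepartitions K F :=
      ih E'' hle'' (by rw [hdeg'']; push_cast at hk; omega)
    exact h1.trans (sup_le h2 le_sup_right)

theorem repartitionsOf_le_sup (hF : IsCurveOfGenus K F g) {E E' : Divisor K F}
    (hdeg : 2 * (g : ℤ) - 2 < Divisor.degree E) (hle : E ≤ E') :
    repartitionsOf E' ≤ repartitionsOf E ⊔ principalRepartitions K F := by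
  have h0 : 0 ≤ Divisor.degree E' - Divisor.degree E := by
    have h2 : 0 ≤ Divisor.degree (E' - E) :=
      Cech.degree_nonneg_of_nonneg (fun w => by
        rw [Finsupp.sub_apply]
        have := Finsupp.le_def.mp hle w
        omega)
    rw [map_sub] at h2
    exact h2
  exact repartitionsOf_le_sup_aux hF E hdeg (Divisor.degree E' - Divisor.degree E).toNat E' hle
    (Int.toNat_of_nonneg h0).symm

/-- **Strong approximation.**  `A = A(E) + F` for `deg E > 2g - 2`. -/
theorem repartitionsOf_sup_eq_top (hF : IsCurveOfGenus K F g) {E : Divisor K F}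
    (hdeg : 2 * (g : ℤ) - 2 < Divisor.degree E) :
    repartitionsOf E ⊔ principalRepartitions K F = ⊤ := by
  haveI := hF.hasPrincipalDivisors
  rw [eq_top_iff]
  intro α _
  obtain ⟨E', hle, hα⟩ := exists_ge_mem_repartitionsOf α E
  exact repartitionsOf_le_sup hF hdeg hle hα

end Fermat.Agent.S27lib.BR2
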